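import Fermat.Agent.Periods.Primitive
import Fermat.Prelude.Def_ModularCurve_PeriodHomPair

/-!
# Injectivity of the Eichler-Shimura map `periodHomPair`
-/

set_option autoImplicit false

noncomputable section

open UpperHalfPlane CongruenceSubgroup Filter Topology Metric Function
open scoped MatrixGroups ModularForm Manifold Real ComplexConjugate

namespace Fermat.Agent.Periods

/-- The reflection `z ↦ -conj z` of the upper half plane. -/
def refl (z : ℍ) : ℍ :=
  ⟨-conj (z : ℂ), by simpa using z.im_pos⟩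

@[simp] theorem coe_refl (z : ℍ) : ((refl z : ℍ) : ℂ) = -conj (z : ℂ) := rfl

theorem refl_refl (z : ℍ) : refl (refl z) = z := by
  apply UpperHalfPlane.ext
  simp

theorem refl_smul (γ : SL(2, ℤ)) (z : ℍ) :
    refl (γ • z) = ModularCurve.Period.jConjSL γ • refl z := by
  apply UpperHalfPlane.ext
  rw [coe_refl, coe_specialLinearGroup_apply, coe_specialLinearGroup_apply]
  simp [map_div₀, neg_div']
  ring_nf

theorem qParam_refl (h : ℝ) (z : ℍ) :
    Periodic.qParam h ((refl z : ℍ) : ℂ) = conj (Periodic.qParam h (z : ℂ)) := by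
  simp only [Periodic.qParam, coe_refl, ← Complex.exp_conj, map_div₀, map_mul, map_ofNat,
    Complex.conj_ofReal, Complex.conj_I]
  ring_nf

/-- `G ↦ -conj (G (-conj z))`. -/
def reflFun (G : ℍ → ℂ) : ℍ → ℂ := fun z ↦ -conj (G (refl z))

variable {N : ℕ}

theorem CuspRegular.reflFun {G : ℍ → ℂ} (hG : CuspRegular N G) :
    CuspRegular N (reflFun G) := by
  intro δ
  obtain ⟨Ψ, hΨ, hG'⟩ := hG (ModularCurve.Period.jConjSL δ)
  refine ⟨fun q ↦ -conj (Ψ (conj q)), fun q hq ↦ ?_, fun w ↦ ?_⟩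
  · have hq' : conj q ∈ ball (0 : ℂ) 1 := by simpa [mem_ball_zero_iff] using hq
    have h := (hΨ.differentiableAt (isOpen_ball.mem_nhds hq')).conj_conj
    rw [Complex.conj_conj] at h
    exact h.neg.differentiableWithinAt
  · simp only [Fermat.Agent.Periods.reflFun]
    rw [refl_smul, hG', qParam_refl]

theorem CuspRegular.add {G₁ G₂ : ℍ → ℂ} (h₁ : CuspRegular N G₁) (h₂ : CuspRegular N G₂) :
    CuspRegular N (G₁ + G₂) := by
  intro δ
  obtain ⟨Ψ₁, hd₁, he₁⟩ := h₁ δ
  obtain ⟨Ψ₂, hd₂, he₂⟩ := h₂ δ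
  exact ⟨Ψ₁ + Ψ₂, hd₁.add hd₂, fun w ↦ by rw [Pi.add_apply, he₁, he₂, Pi.add_apply]⟩

theorem CuspRegular.const_mul {G : ℍ → ℂ} (h : CuspRegular N G) (c : ℂ) :
    CuspRegular N (fun z ↦ c * G z) := by
  intro δ
  obtain ⟨Ψ, hd, he⟩ := h δ
  exact ⟨fun q ↦ c * Ψ q, hd.const_mul c, fun w ↦ congrArg (c * ·) (he w)⟩

variable [NeZero N]

/-- A cusp regular function whose real part is `Gamma0 N`-invariant is constant. -/
theorem eq_const_of_re_invariant {H : ℍ → ℂ} (hH : CuspRegular N H)
    (hinv : ∀ γ : Gamma0 N, ∀ z : ℍ, (H ((γ : SL(2, ℤ)) • z)).re = (H z).re) :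
    ∃ C : ℂ, ∀ z : ℍ, H z = C := by
  classical
  have hN := natCast_pos_real N
  choose Ψ hΨd hΨ using hH
  let rep : SL(2, ℤ) ⧸ Gamma0 N → SL(2, ℤ) := fun x ↦ (Quotient.out x)⁻¹
  set r := Real.exp (-π / N) with hr
  have hr1 : r < 1 := Real.exp_lt_one_iff.mpr
    (div_neg_of_neg_of_pos (neg_lt_zero.mpr Real.pi_pos) hN)
  have hKU : closedBall (0 : ℂ) r ⊆ ball 0 1 := closedBall_subset_ball hr1
  have hEd : ∀ δ, DifferentiableOn ℂ (fun q ↦ Complex.exp (Ψ δ q)) (ball 0 1) :=
    fun δ ↦ (hΨd δ).cexp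
  have hmax : ∀ x, ∃ q ∈ closedBall (0 : ℂ) r,
      IsMaxOn (fun q ↦ ‖Complex.exp (Ψ (rep x) q)‖) (closedBall 0 r) q := fun x ↦
    (isCompact_closedBall 0 r).exists_isMaxOn (nonempty_closedBall.mpr (Real.exp_nonneg _))
      ((hEd _).continuousOn.mono hKU).norm
  choose qm hqm hqmax using hmax
  obtain ⟨x₀, hx₀⟩ := Finite.exists_max fun x ↦ ‖Complex.exp (Ψ (rep x) (qm x))‖
  have hbound : ∀ z : ℍ, ‖Complex.exp (H z)‖ ≤ ‖Complex.exp (Ψ (rep x₀) (qm x₀))‖ := by
    intro z
    obtain ⟨g, hg⟩ := ModularGroup.exists_one_half_le_im_smul z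
    obtain ⟨⟨γ, hγ⟩, hgγ⟩ := QuotientGroup.mk_out_eq_mul (Gamma0 N) g
    set x : SL(2, ℤ) ⧸ Gamma0 N := (g : SL(2, ℤ) ⧸ Gamma0 N) with hx
    have hz : z = (γ : SL(2, ℤ)) • (rep x • (g • z)) := by
      simp only [rep, ← mul_smul]
      rw [show Quotient.out x = g * γ from hgγ]
      simp [mul_assoc]
    have hre : (H z).re = (H (rep x • (g • z))).re := by
      conv_lhs => rw [hz]
      exact hinv ⟨γ, hγ⟩ _
    have hq : Periodic.qParam (N : ℝ) ((g • z : ℍ) : ℂ) ∈ closedBall (0 : ℂ) r := by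
      rw [mem_closedBall_zero_iff, Periodic.norm_qParam, hr, Real.exp_le_exp]
      gcongr
      nlinarith [Real.pi_pos, hg, show ((g • z : ℍ) : ℂ).im = (g • z).im from rfl]
    rw [Complex.norm_exp, hre, hΨ, ← Complex.norm_exp]
    exact le_trans (hqmax x hq) (hx₀ x)
  have hmax0 : IsMaxOn (norm ∘ fun q ↦ Complex.exp (Ψ (rep x₀) q)) (ball 0 1) (qm x₀) := by
    intro q hq
    simp only [Set.mem_ofPred_eq, comp_apply]
    rcases eq_or_ne q 0 with rfl | hq0
    · exact hqmax x₀ (mem_closedBall_self (Real.exp_nonneg _))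
    · let w : ℍ := ⟨_, Periodic.im_invQParam_pos_of_norm_lt_one hN (mem_ball_zero_iff.mp hq) hq0⟩
      have := hbound (rep x₀ • w)
      rwa [hΨ, show Periodic.qParam (N : ℝ) (w : ℂ) = q from
        Periodic.qParam_right_inv hN.ne' hq0] at this
  have hconst := Complex.eqOn_of_isPreconnected_of_isMaxOn_norm
    (convex_ball (0 : ℂ) 1).isPreconnected isOpen_ball (hEd _) (hKU (hqm x₀)) hmax0
  have hexp : ∀ z : ℍ, Complex.exp (H z) = Complex.exp (Ψ (rep x₀) (qm x₀)) := by
    intro z
    conv_lhs => rw [← smul_inv_smul (rep x₀) z, hΨ]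
    exact hconst (mem_ball_zero_iff.mpr (Periodic.norm_qParam_lt_one hN (UpperHalfPlane.im_pos _)))
  have hprim : IsPrimitive 0 H := by
    intro τ
    obtain hd : DifferentiableAt ℂ (H ∘ ofComplex) τ := by
      have heq : (fun z : ℂ ↦ Ψ 1 (Periodic.qParam (N : ℝ) z)) =ᶠ[𝓝 (τ : ℂ)] H ∘ ofComplex := by
        filter_upwards [isOpen_upperHalfPlaneSet.mem_nhds τ.im_pos] with z hz
        have := hΨ 1 (ofComplex z)
        rw [one_smul] at this
        rw [comp_apply, this, ofComplex_apply_of_im_pos hz]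
      refine DifferentiableAt.congr_of_eventuallyEq ?_ heq.symm
      exact ((hΨd 1).differentiableAt (isOpen_ball.mem_nhds (mem_ball_zero_iff.mpr
        (Periodic.norm_qParam_lt_one hN τ.im_pos)))).comp _ (Periodic.differentiable_qParam _)
    have h1 := hd.hasDerivAt.cexp
    have h2 : HasDerivAt (fun z : ℂ ↦ Complex.exp ((H ∘ ofComplex) z)) 0 (τ : ℂ) := by
      simp only [comp_apply, hexp]
      exact hasDerivAt_const _ _
    have h3 := h1.unique h2
    rw [mul_eq_zero, or_iff_right (Complex.exp_ne_zero _)] at h3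
    simpa [h3] using hd.hasDerivAt
  obtain ⟨C, hC⟩ := exists_eq_add_const hprim (G₂ := fun _ ↦ 0)
    (fun τ ↦ by simpa [Function.comp_def] using hasDerivAt_const (τ : ℂ) (0 : ℂ))
  exact ⟨C, fun z ↦ by simpa using hC z⟩

/-- A cusp form whose periods are conjugation invariant up to a sign `ε` is zero. -/
theorem eq_zero_of_periodMap_jConj (f : CuspForm (Gamma0 N) 2) (ε : ℂ) (hε : ε = 1 ∨ ε = -1)
    (h : ∀ γ : Gamma0 N,
      ModularCurve.periodMap N f (Additive.ofMul (ModularCurve.Period.jConjGamma0 N γ))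
        = ε * ModularCurve.periodMap N f (Additive.ofMul γ)) : f = 0 := by
  obtain ⟨F, hF⟩ := exists_hasEquivariantPrimitive f
  have hR : CuspRegular N F := cuspRegular_of_isPrimitive f hF.1
  set p : Gamma0 N → ℂ := fun γ ↦ ModularCurve.periodMap N f (Additive.ofMul γ)
  have hp : ∀ (γ : Gamma0 N) z, F ((γ : SL(2, ℤ)) • z) = F z + p γ := fun γ z ↦ by
    simp only [p, periodMap_apply f hF.1 γ z]; ring
  have hpR : ∀ (γ : Gamma0 N) z,
      reflFun F ((γ : SL(2, ℤ)) • z) = reflFun F z - conj (ε * p γ) := fun γ z ↦ by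
    simp only [reflFun, refl_smul]
    rw [← ModularCurve.Period.jConjGamma0_coe, hp, map_add, show p _ = ε * p γ from h γ]
    ring
  obtain ⟨C₁, hC₁⟩ := eq_const_of_re_invariant
    (hR.add (hR.reflFun.const_mul ε)) (fun γ z ↦ by
      simp only [Pi.add_apply, hp, hpR]
      rcases hε with rfl | rfl <;> simp)
  obtain ⟨C₂, hC₂⟩ := eq_const_of_re_invariant
    ((hR.add (hR.reflFun.const_mul (-ε))).const_mul Complex.I) (fun γ z ↦ by
      simp only [Pi.add_apply, hp, hpR]
      rcases hε with rfl | rfl <;> simp <;> ring)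
  have hFc : ∀ z, F z = (C₁ + C₂ / Complex.I) / 2 := fun z ↦ by
    rw [← hC₁ z, ← hC₂ z]
    simp only [Pi.add_apply]
    field_simp
    ring
  ext τ
  have h1 := hF.1 τ
  have h2 : HasDerivAt (F ∘ ofComplex) 0 (τ : ℂ) := by
    simp only [Function.comp_def, hFc]
    exact hasDerivAt_const _ _
  simpa using h1.unique h2

theorem existsPeriodMapLinear (N : ℕ) [NeZero N] : ModularCurve.ExistsPeriodMapLinear N :=
  ⟨periodLinear N, periodLinear_apply⟩

theorem periodHomPair_apply (f g : CuspForm (Gamma0 N) 2) :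
    ModularCurve.periodHomPair N (f, g) =
      (ModularCurve.periodMap N f + ModularCurve.Period.charInvolution N ℂ ℂ
          (ModularCurve.periodMap N f)) +
      (ModularCurve.periodMap N g - ModularCurve.Period.charInvolution N ℂ ℂ
          (ModularCurve.periodMap N g)) := by
  obtain ⟨pml, hpml, hdef⟩ := ModularCurve.periodHomPair_def N (existsPeriodMapLinear N)
  rw [hdef]
  simp [hpml]

theorem periodHomPair_injective (N : ℕ) [NeZero N] :
    Function.Injective (ModularCurve.periodHomPair N) := by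
  rw [← LinearMap.ker_eq_bot, LinearMap.ker_eq_bot']
  rintro ⟨f, g⟩ hfg
  rw [periodHomPair_apply] at hfg
  have key : ∀ γ : Gamma0 N,
      ModularCurve.periodMap N f (Additive.ofMul (ModularCurve.Period.jConjGamma0 N γ))
        = -1 * ModularCurve.periodMap N f (Additive.ofMul γ) ∧
      ModularCurve.periodMap N g (Additive.ofMul (ModularCurve.Period.jConjGamma0 N γ))
        = 1 * ModularCurve.periodMap N g (Additive.ofMul γ) := by
    intro γ
    have h1 := DFunLike.congr_fun hfg (Additive.ofMul γ)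
    have h2 := DFunLike.congr_fun hfg (Additive.ofMul (ModularCurve.Period.jConjGamma0 N γ))
    simp [ModularCurve.Period.jConjGamma0_jConjGamma0] at h1 h2
    constructor
    · linear_combination (h1 + h2) / 2
    · linear_combination (h2 - h1) / 2
  refine Prod.ext ?_ ?_
  · exact eq_zero_of_periodMap_jConj f (-1) (Or.inr rfl) fun γ ↦ (key γ).1
  · exact eq_zero_of_periodMap_jConj g 1 (Or.inl rfl) fun γ ↦ (key γ).2

theorem range_periodHomPair_le (N : ℕ) [NeZero N] :
    LinearMap.range (ModularCurve.periodHomPair N) ≤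
      ModularCurve.Period.parabolicHoms ℂ (Gamma0 N) ℂ := by
  rintro _ ⟨⟨f, g⟩, rfl⟩
  rw [periodHomPair_apply]
  exact add_mem
    (add_mem (periodMap_mem_parabolicHoms f)
      (ModularCurve.Period.charInvolution_mem_parabolicHoms N ℂ ℂ (periodMap_mem_parabolicHoms f)))
    (sub_mem (periodMap_mem_parabolicHoms g)
      (ModularCurve.Period.charInvolution_mem_parabolicHoms N ℂ ℂ (periodMap_mem_parabolicHoms g)))

/-- If `parabolicHoms` is finite dimensional, so is the space of weight two cusp forms, with twice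
its dimension bounded by that of `parabolicHoms`. -/
theorem two_mul_finrank_le (N : ℕ) [NeZero N]
    [Module.Finite ℂ (ModularCurve.Period.parabolicHoms ℂ (Gamma0 N) ℂ)] :
    Module.Finite ℂ (CuspForm (Gamma0 N) 2) ∧
    2 * Module.finrank ℂ (CuspForm (Gamma0 N) 2) ≤
      Module.finrank ℂ (ModularCurve.Period.parabolicHoms ℂ (Gamma0 N) ℂ) := by
  set L := (ModularCurve.periodHomPair N).codRestrict _
    (fun x ↦ range_periodHomPair_le N ⟨x, rfl⟩)
  have hinj : Function.Injective L := fun x y hxy ↦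
    periodHomPair_injective N (congrArg Subtype.val hxy)
  have := Module.Finite.of_injective L hinj
  have hfst : Module.Finite ℂ (CuspForm (Gamma0 N) 2) := Module.Finite.of_surjective
    (LinearMap.fst ℂ (CuspForm (Gamma0 N) 2) (CuspForm (Gamma0 N) 2)) Prod.fst_surjective
  refine ⟨hfst, ?_⟩
  have hle := LinearMap.finrank_le_finrank_of_injective hinj
  rw [Module.finrank_prod] at hle
  omega

theorem range_periodHomPair_eq_of_finrank_le (N : ℕ) [NeZero N]
    [Module.Finite ℂ (ModularCurve.Period.parabolicHoms ℂ (Gamma0 N) ℂ)]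
    (h : Module.finrank ℂ (ModularCurve.Period.parabolicHoms ℂ (Gamma0 N) ℂ) ≤
      2 * Module.finrank ℂ (CuspForm (Gamma0 N) 2)) :
    LinearMap.range (ModularCurve.periodHomPair N)
      = ModularCurve.Period.parabolicHoms ℂ (Gamma0 N) ℂ := by
  have := (two_mul_finrank_le N).1
  refine Submodule.eq_of_le_of_finrank_le (range_periodHomPair_le N) (h.trans_eq ?_)
  rw [LinearMap.finrank_range_of_inj (periodHomPair_injective N), Module.finrank_prod, two_mul]

end Fermat.Agent.Periods
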