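import Mathlib
import Fermat.Prelude.Def_ModularCurve_PeriodMapBundled

/-!
# Equivariant primitives of weight two cusp forms on `Gamma0 N`

Existence of equivariant primitives, and the basic properties of `ModularCurve.periodMap`.
-/

set_option autoImplicit false

noncomputable section

open UpperHalfPlane CongruenceSubgroup Filter Topology Metric Function
open scoped MatrixGroups ModularForm Manifold Real

namespace Fermat.Agent.Periods

/-- `G` is a primitive of `g` on the upper half plane. -/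
def IsPrimitive (g G : ℍ → ℂ) : Prop :=
  ∀ τ : ℍ, HasDerivAt (G ∘ ofComplex) (g τ) ↑τ

/-- `G (δ • w)` is an analytic function of `exp (2 π i w / N)` on the open disc, for every `δ`. -/
def CuspRegular (N : ℕ) (G : ℍ → ℂ) : Prop :=
  ∀ δ : SL(2, ℤ), ∃ Ψ : ℂ → ℂ, DifferentiableOn ℂ Ψ (ball 0 1) ∧
    ∀ w : ℍ, G (δ • w) = Ψ (Periodic.qParam (N : ℝ) w)

theorem natCast_pos_real (N : ℕ) [NeZero N] : (0 : ℝ) < N :=
  Nat.cast_pos.mpr (NeZero.pos N)

/-- Two functions on `ℍ` with the same derivative differ by a constant. -/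
theorem exists_eq_add_const {g G₁ G₂ : ℍ → ℂ} (h₁ : IsPrimitive g G₁) (h₂ : IsPrimitive g G₂) :
    ∃ C : ℂ, ∀ w : ℍ, G₁ w = G₂ w + C := by
  have hd : ∀ z ∈ upperHalfPlaneSet, HasDerivAt (G₁ ∘ ofComplex - G₂ ∘ ofComplex) 0 z := by
    intro z hz
    have := (h₁ ⟨z, hz⟩).sub (h₂ ⟨z, hz⟩)
    simpa using this
  obtain ⟨C, hC⟩ := isOpen_upperHalfPlaneSet.exists_is_const_of_deriv_eq_zero
    (convex_halfSpace_im_gt 0).isPreconnected
    (fun z hz ↦ (hd z hz).differentiableAt.differentiableWithinAt)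
    (fun z hz ↦ (hd z hz).deriv)
  refine ⟨C, fun w ↦ ?_⟩
  have := hC (w : ℂ) w.im_pos
  simp only [Pi.sub_apply, Function.comp_apply, ofComplex_apply] at this
  linear_combination this

theorem isPrimitive_add_const {g G : ℍ → ℂ} (h : IsPrimitive g G) (C : ℂ) :
    IsPrimitive g (fun w ↦ G w + C) :=
  fun τ ↦ (h τ).add_const C

/-- The derivative of `G (δ • ·)` is the weight two translate of the derivative of `G`. -/
theorem isPrimitive_comp_smul {g G : ℍ → ℂ} (h : IsPrimitive g G) (δ : SL(2, ℤ)) :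
    IsPrimitive (g ∣[(2 : ℤ)] δ) (fun w ↦ G (δ • w)) := by
  intro τ
  have hdet1 : (Matrix.SpecialLinearGroup.mapGL ℝ δ).val.det = 1 :=
    (Matrix.SpecialLinearGroup.map (algebraMap ℤ ℝ) δ).det_coe
  have hdet : 0 < (Matrix.SpecialLinearGroup.mapGL ℝ δ).val.det := hdet1 ▸ one_pos
  have hs := (hasStrictDerivAt_smul hdet τ).hasDerivAt
  have hh := h (δ • τ)
  have hcomp := HasDerivAt.comp (τ : ℂ) (h₂ := G ∘ ofComplex)
    (h := fun z : ℂ ↦ ((δ • ofComplex z : ℍ) : ℂ)) (h₂' := g (δ • τ))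
    (by simpa using hh) hs
  have heq : (fun w ↦ G (δ • w)) ∘ ofComplex
      = (G ∘ ofComplex) ∘ fun z : ℂ ↦ ((δ • ofComplex z : ℍ) : ℂ) := by
    funext z; simp
  have hval : (g ∣[(2 : ℤ)] δ) τ = g (δ • τ) *
      (((Matrix.SpecialLinearGroup.mapGL ℝ δ).val.det : ℂ) /
        denom (Matrix.SpecialLinearGroup.mapGL ℝ δ) τ ^ 2) := by
    rw [hdet1, Complex.ofReal_one, one_div, ModularForm.SL_slash_apply, zpow_neg]
    rfl
  rw [heq, hval]
  exact hcomp

/-- A periodic holomorphic function which is zero at infinity has a primitive which is an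
analytic function of the parameter at infinity. -/
theorem exists_disc_primitive {h : ℝ} (hh : 0 < h) {g : ℍ → ℂ} (hper : Periodic (g ∘ ofComplex) h)
    (hhol : MDiff g) (hzero : IsZeroAtImInfty g) :
    ∃ Φ : ℂ → ℂ, DifferentiableOn ℂ Φ (ball 0 1) ∧ Φ 0 = 0 ∧
      IsPrimitive g (fun w : ℍ ↦ Φ (Periodic.qParam h w)) := by
  have hbdd : IsBoundedAtImInfty g := hzero.isBoundedAtImInfty
  have hφ : DifferentiableOn ℂ (cuspFunction h g) (ball 0 1) :=
    differentiableOn_cuspFunction_ball hh hper hhol hbdd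
  have hφ0 : cuspFunction h g 0 = 0 := by
    rw [cuspFunction_apply_zero hh (analyticAt_cuspFunction_zero hh hper hhol hbdd) hper,
      hzero.valueAtInfty_eq_zero]
  have hψ : DifferentiableOn ℂ (dslope (cuspFunction h g) 0) (ball 0 1) :=
    (Complex.differentiableOn_dslope (ball_mem_nhds 0 one_pos)).mpr hφ
  obtain ⟨Φ₀, hΦ₀0, hΦ₀⟩ := (hψ.isExactOn_ball).with_val_at 0 0
  have hk : (2 * (π : ℂ) * Complex.I / h) ≠ 0 :=
    div_ne_zero Complex.two_pi_I_ne_zero (Complex.ofReal_ne_zero.mpr hh.ne')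
  refine ⟨fun q ↦ Φ₀ q / (2 * π * Complex.I / h), ?_, by simp [hΦ₀0], fun τ ↦ ?_⟩
  · exact fun q hq ↦ ((hΦ₀ q hq).differentiableAt.div_const _).differentiableWithinAt
  have hq : Periodic.qParam h (τ : ℂ) ∈ ball (0 : ℂ) 1 :=
    mem_ball_zero_iff.mpr (Periodic.norm_qParam_lt_one hh τ.im_pos)
  have hq0 : Periodic.qParam h (τ : ℂ) ≠ 0 := Complex.exp_ne_zero _
  have hqd : HasDerivAt (Periodic.qParam h)
      (Periodic.qParam h (τ : ℂ) * (2 * π * Complex.I / h)) (τ : ℂ) := by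
    have := ((hasDerivAt_id (τ : ℂ)).const_mul (2 * (π : ℂ) * Complex.I / h)).cexp
    convert! this using 1
    · funext z; simp only [Periodic.qParam, id_eq]; ring_nf
    · simp only [Periodic.qParam, id_eq, mul_one]; ring_nf
  have hcomp := ((hΦ₀ _ hq).div_const (2 * π * Complex.I / h)).comp (τ : ℂ) hqd
  have hval : g τ = dslope (cuspFunction h g) 0 (Periodic.qParam h (τ : ℂ))
      / (2 * π * Complex.I / h) * (Periodic.qParam h (τ : ℂ) * (2 * π * Complex.I / h)) := by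
    rw [dslope_of_ne _ hq0, slope_def_field, hφ0, eq_cuspFunction τ hh.ne' hper]
    simp only [sub_zero]
    have hh' : (h : ℂ) ≠ 0 := Complex.ofReal_ne_zero.mpr hh.ne'
    field_simp
  rw [hval]
  refine hcomp.congr_of_eventuallyEq ?_
  filter_upwards [isOpen_upperHalfPlaneSet.mem_nhds τ.im_pos] with z hz
  simp [ofComplex_apply_of_im_pos hz]

section Gamma0

variable (N : ℕ)

theorem T_zpow_mem_Gamma (N : ℕ) : ModularGroup.T ^ (N : ℤ) ∈ Gamma N := by
  simpa using ModularGroup_T_pow_mem_Gamma (N : ℤ) (N : ℤ) dvd_rfl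

theorem mem_Gamma0_of_mem_Gamma {g : SL(2, ℤ)} (hg : g ∈ Gamma N) : g ∈ Gamma0 N := by
  rw [Gamma_mem] at hg
  exact Gamma0_mem.mpr hg.2.2.1

theorem conj_T_zpow_mem_Gamma0 (δ : SL(2, ℤ)) :
    δ * ModularGroup.T ^ (N : ℤ) * δ⁻¹ ∈ Gamma0 N :=
  mem_Gamma0_of_mem_Gamma N ((Gamma_normal N).conj_mem _ (T_zpow_mem_Gamma N) δ)

variable {N}

theorem slash_eq_self (f : CuspForm (Gamma0 N) 2) {γ : SL(2, ℤ)} (hγ : γ ∈ Gamma0 N) :
    (⇑f ∣[(2 : ℤ)] γ) = ⇑f := by
  rw [ModularForm.SL_slash]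
  exact SlashInvariantFormClass.slash_action_eq f _ (Subgroup.mem_map_of_mem _ hγ)

theorem periodic_slash (f : CuspForm (Gamma0 N) 2) (δ : SL(2, ℤ)) :
    Periodic ((⇑f ∣[(2 : ℤ)] δ) ∘ ofComplex) (N : ℝ) := by
  intro w
  by_cases hw : 0 < w.im
  · have h' : 0 < (w + (N : ℝ)).im := by simpa using hw
    simp only [comp_apply, ofComplex_apply_of_im_pos h', ofComplex_apply_of_im_pos hw]
    have key : (⇑f ∣[(2 : ℤ)] δ) ∣[(2 : ℤ)] (ModularGroup.T ^ (N : ℤ)) = (⇑f ∣[(2 : ℤ)] δ) := by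
      rw [← SlashAction.slash_mul,
        show δ * ModularGroup.T ^ (N : ℤ) = δ * ModularGroup.T ^ (N : ℤ) * δ⁻¹ * δ by group,
        SlashAction.slash_mul, slash_eq_self f (conj_T_zpow_mem_Gamma0 N δ)]
    have := congr_fun key ⟨w, hw⟩
    rw [ModularForm.SL_slash_apply, modular_T_zpow_smul] at this
    rw [← this]
    have hden : denom (ModularGroup.T ^ (N : ℤ) : SL(2, ℤ))
        ((⟨w, hw⟩ : ℍ) : ℂ) = 1 := by
      rw [ModularGroup.denom_apply, ModularGroup.coe_T_zpow]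
      simp
    rw [hden, one_zpow, mul_one]
    refine congrArg _ (UpperHalfPlane.ext ?_)
    simp [coe_vadd, add_comm]
  · have h' : (w + (N : ℝ)).im ≤ 0 := by simpa using hw
    rw [comp_apply, comp_apply, ofComplex_apply_of_im_nonpos h',
      ofComplex_apply_of_im_nonpos (not_lt.mp hw)]

variable [NeZero N]

theorem exists_disc_primitive_slash (f : CuspForm (Gamma0 N) 2) (δ : SL(2, ℤ)) :
    ∃ Φ : ℂ → ℂ, DifferentiableOn ℂ Φ (ball 0 1) ∧ Φ 0 = 0 ∧
      IsPrimitive (⇑f ∣[(2 : ℤ)] δ) (fun w : ℍ ↦ Φ (Periodic.qParam (N : ℝ) w)) :=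
  exists_disc_primitive (natCast_pos_real N) (periodic_slash f δ)
    (by rw [ModularForm.SL_slash]; exact MDifferentiable.slash (CuspFormClass.holo f) 2 _)
    (CuspFormClass.zero_at_infty_slash f δ)

/-- Every primitive of a cusp form is regular at all cusps. -/
theorem cuspRegular_of_isPrimitive (f : CuspForm (Gamma0 N) 2) {F : ℍ → ℂ}
    (hF : IsPrimitive f F) : CuspRegular N F := by
  intro δ
  obtain ⟨Φ, hΦ, -, hprim⟩ := exists_disc_primitive_slash f δ
  obtain ⟨C, hC⟩ := exists_eq_add_const (isPrimitive_comp_smul hF δ) hprim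
  exact ⟨fun q ↦ Φ q + C, hΦ.add_const C, hC⟩

omit [NeZero N] in
/-- Every primitive of a cusp form is equivariant up to additive constants. -/
theorem isEquivariantPrimitive_of_isPrimitive (f : CuspForm (Gamma0 N) 2) {F : ℍ → ℂ}
    (hF : IsPrimitive f F) : ModularCurve.Period.IsEquivariantPrimitive (Gamma0 N) F := by
  intro γ
  have h1 := isPrimitive_comp_smul hF (γ : SL(2, ℤ))
  rw [slash_eq_self f γ.2] at h1
  obtain ⟨C, hC⟩ := exists_eq_add_const h1 hF
  exact ⟨C, fun z ↦ by rw [hC z]; ring⟩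

omit [NeZero N] in
theorem CuspRegular.tendsto_smul {G : ℍ → ℂ} (hG : CuspRegular N G) [NeZero N] (δ : SL(2, ℤ)) :
    ∃ L : ℂ, Tendsto (fun w : ℍ ↦ G (δ • w)) atImInfty (𝓝 L) := by
  obtain ⟨Ψ, hΨ, hG'⟩ := hG δ
  refine ⟨Ψ 0, ?_⟩
  simp only [hG']
  exact ((hΨ.differentiableAt (ball_mem_nhds 0 one_pos)).continuousAt.tendsto).comp
    (qParam_tendsto_atImInfty (natCast_pos_real N))

theorem exists_hasEquivariantPrimitive (f : CuspForm (Gamma0 N) 2) :
    ∃ F : ℍ → ℂ, ModularCurve.HasEquivariantPrimitive N f F := by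
  obtain ⟨Φ, hΦ, hΦ0, hprim⟩ := exists_disc_primitive_slash f 1
  rw [SlashAction.slash_one] at hprim
  refine ⟨_, hprim, ?_, isEquivariantPrimitive_of_isPrimitive f hprim,
    (cuspRegular_of_isPrimitive f hprim).tendsto_smul⟩
  rw [← hΦ0]
  exact ((hΦ.differentiableAt (ball_mem_nhds 0 one_pos)).continuousAt.tendsto).comp
    (qParam_tendsto_atImInfty (natCast_pos_real N))

/-- The period map computed by an arbitrary primitive and an arbitrary base point. -/
theorem periodMap_apply (f : CuspForm (Gamma0 N) 2) {F : ℍ → ℂ} (hF : IsPrimitive f F)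
    (γ : Gamma0 N) (z : ℍ) :
    ModularCurve.periodMap N f (Additive.ofMul γ) = F ((γ : SL(2, ℤ)) • z) - F z := by
  obtain ⟨F₁, hF₁⟩ := exists_hasEquivariantPrimitive f
  obtain ⟨F₀, h₀, hdef⟩ := ModularCurve.periodMap_def N f hF₁
  obtain ⟨C, hC⟩ := exists_eq_add_const (G₁ := F₀) h₀.1 hF
  rw [hdef, ModularCurve.Period.IsEquivariantPrimitive.periodHom_apply,
    ← h₀.2.2.1.sub_eq_period γ z, hC, hC]
  ring

/-- The period map as a linear map. -/
def periodLinear (N : ℕ) [NeZero N] :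
    CuspForm (Gamma0 N) 2 →ₗ[ℂ] (Additive (Gamma0 N) →+ ℂ) where
  toFun f := ModularCurve.periodMap N f
  map_add' f g := by
    obtain ⟨F, hF⟩ := exists_hasEquivariantPrimitive f
    obtain ⟨G, hG⟩ := exists_hasEquivariantPrimitive g
    have hFG : IsPrimitive (⇑(f + g)) (F + G) := fun τ ↦ (hF.1 τ).add (hG.1 τ)
    refine AddMonoidHom.ext fun a ↦ ?_
    obtain ⟨γ, rfl⟩ := Additive.ofMul.surjective a
    rw [AddMonoidHom.add_apply, periodMap_apply f hF.1 γ I, periodMap_apply g hG.1 γ I,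
      periodMap_apply (f + g) hFG γ I, Pi.add_apply, Pi.add_apply]
    ring
  map_smul' c f := by
    obtain ⟨F, hF⟩ := exists_hasEquivariantPrimitive f
    have hcF : IsPrimitive (⇑(c • f)) (fun w ↦ c * F w) := fun τ ↦ (hF.1 τ).const_mul c
    refine AddMonoidHom.ext fun a ↦ ?_
    obtain ⟨γ, rfl⟩ := Additive.ofMul.surjective a
    rw [RingHom.id_apply, periodMap_apply (c • f) hcF γ I]
    change c * F _ - c * F _ = c • ModularCurve.periodMap N f _
    rw [periodMap_apply f hF.1 γ I, smul_eq_mul]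
    ring

@[simp] theorem periodLinear_apply (f : CuspForm (Gamma0 N) 2) :
    periodLinear N f = ModularCurve.periodMap N f := rfl

/-- A matrix of trace `±2` is conjugate to an upper triangular one. -/
theorem exists_conj_lower_left_eq_zero (γ : SL(2, ℤ))
    (htr : (γ : Matrix (Fin 2) (Fin 2) ℤ).trace ^ 2 = 4) :
    ∃ δ : SL(2, ℤ), (δ⁻¹ * γ * δ) 1 0 = 0 := by
  by_cases hc : γ 1 0 = 0
  · exact ⟨1, by simpa using hc⟩
  have hdet := Matrix.det_fin_two (γ : Matrix (Fin 2) (Fin 2) ℤ)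
  rw [γ.det_coe] at hdet
  rw [Matrix.trace_fin_two] at htr
  set a := γ 0 0
  set b := γ 0 1
  set c := γ 1 0
  set d := γ 1 1
  obtain ⟨g, p, r, hg, hpr, hp, hr⟩ := Int.exists_gcd_one'
    (m := a - d) (n := 2 * c) (Int.gcd_pos_of_ne_zero_right _ (by omega))
  obtain ⟨u, v, huv⟩ := Int.isCoprime_iff_gcd_eq_one.mpr hpr
  refine ⟨⟨!![p, -v; r, u], by rw [Matrix.det_fin_two_of]; linarith [huv]⟩, ?_⟩
  have hg0 : (g : ℤ) ≠ 0 := by exact_mod_cast hg.ne'
  have key : (g : ℤ) ^ 2 * (c * p ^ 2 + (d - a) * p * r - b * r ^ 2) = 0 := by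
    have : c * (a - d) ^ 2 + (d - a) * (a - d) * (2 * c) - b * (2 * c) ^ 2 = 0 := by
      linear_combination (-c) * htr - 4 * c * hdet
    rw [hp, hr] at this
    have hd : d - a = -(p * g) := by linarith
    rw [hd] at this ⊢
    linear_combination this
  have key' : c * p ^ 2 + (d - a) * p * r - b * r ^ 2 = 0 :=
    (mul_eq_zero.mp key).resolve_left (pow_ne_zero _ hg0)
  rw [Matrix.SpecialLinearGroup.coe_mul, Matrix.SpecialLinearGroup.coe_mul,
    Matrix.SpecialLinearGroup.coe_inv]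
  simp [Matrix.mul_apply, Matrix.vecMul, dotProduct, Fin.sum_univ_two, Matrix.adjugate_fin_two]
  linear_combination key'

theorem tendsto_vadd_atImInfty (x : ℝ) :
    Tendsto (fun w : ℍ ↦ x +ᵥ w) atImInfty atImInfty := by
  simp only [atImInfty, tendsto_comap_iff, Function.comp_def, vadd_im]
  exact tendsto_comap

/-- Periods of a cusp form vanish on parabolic elements. -/
theorem periodMap_isParabolicHom (f : CuspForm (Gamma0 N) 2) :
    ModularCurve.Period.IsParabolicHom (Gamma0 N) (ModularCurve.periodMap N f) := by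
  intro γ hγ
  obtain ⟨F, hF⟩ := exists_hasEquivariantPrimitive f
  obtain ⟨δ, hδ⟩ := exists_conj_lower_left_eq_zero _ hγ
  set g := δ⁻¹ * (γ : SL(2, ℤ)) * δ with hg
  obtain ⟨L, hL⟩ := hF.2.2.2 δ
  have hdet := Matrix.det_fin_two (g : Matrix (Fin 2) (Fin 2) ℤ)
  rw [g.det_coe, hδ, mul_zero, sub_zero] at hdet
  have hgsmul : ∃ x : ℝ, ∀ w : ℍ, g • w = x +ᵥ w := by
    rcases Int.eq_one_or_neg_one_of_mul_eq_one' hdet.symm with ⟨h0, h1⟩ | ⟨h0, h1⟩
    · refine ⟨g 0 1, fun w ↦ ?_⟩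
      ext
      rw [coe_specialLinearGroup_apply, coe_vadd]
      simp [h0, h1, hδ, add_comm]
    · refine ⟨-g 0 1, fun w ↦ ?_⟩
      ext
      rw [coe_specialLinearGroup_apply, coe_vadd]
      simp [h0, h1, hδ]
      ring
  obtain ⟨x, hx⟩ := hgsmul
  have hconst : ∀ w : ℍ, F (δ • (x +ᵥ w)) - F (δ • w) =
      ModularCurve.periodMap N f (Additive.ofMul γ) := by
    intro w
    rw [periodMap_apply f hF.1 γ (δ • w), ← hx w, hg, ← mul_smul, ← mul_smul]
    simp [mul_assoc]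
  have h1 : Tendsto (fun w : ℍ ↦ F (δ • (x +ᵥ w)) - F (δ • w)) atImInfty (𝓝 (L - L)) :=
    (hL.comp (tendsto_vadd_atImInfty x)).sub hL
  simp only [hconst, sub_self] at h1
  exact (tendsto_const_nhds_iff.mp h1)

theorem periodMap_mem_parabolicHoms (f : CuspForm (Gamma0 N) 2) :
    ModularCurve.periodMap N f ∈ ModularCurve.Period.parabolicHoms ℂ (Gamma0 N) ℂ :=
  periodMap_isParabolicHom f

end Gamma0

end Fermat.Agent.Periods
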