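import Fermat.Agent.Periods.Injective
import Fermat.Agent.ParHom.Gamma0
import Fermat.Agent.DimLower.Main

/-!
# The Eichler-Shimura isomorphism in weight two
-/

set_option autoImplicit false

noncomputable section

open CongruenceSubgroup
open scoped MatrixGroups

namespace Fermat.Agent.Periods

theorem range_periodHomPair (N : ℕ) [NeZero N] :
    LinearMap.range (ModularCurve.periodHomPair N)
      = ModularCurve.Period.parabolicHoms ℂ (Gamma0 N) ℂ := by
  have := Fermat.Agent.ParHom.finiteDimensional_parabolicHoms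
    (Fermat.Agent.ParHom.neg_one_mem_Gamma0 N) ℂ
  apply range_periodHomPair_eq_of_finrank_le
  have h1 := Fermat.Agent.ParHom.finrank_parabolicHoms_Gamma0 N
  have h2 := Fermat.Agent.DimLower.finrank_cuspForm_two_eq_genusFormula N
  rw [← h2] at h1
  exact_mod_cast h1.le

theorem eichlerShimura (N : ℕ) [NeZero N] :
    Function.Injective (ModularCurve.periodHomPair N)
      ∧ LinearMap.range (ModularCurve.periodHomPair N)
          = ModularCurve.Period.parabolicHoms ℂ (Gamma0 N) ℂ :=
  ⟨periodHomPair_injective N, range_periodHomPair N⟩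

/-- The Eichler-Shimura isomorphism as a linear equivalence. -/
def eichlerShimuraEquiv (N : ℕ) [NeZero N] :
    (CuspForm (Gamma0 N) 2 × CuspForm (Gamma0 N) 2) ≃ₗ[ℂ]
      ModularCurve.Period.parabolicHoms ℂ (Gamma0 N) ℂ :=
  (LinearEquiv.ofInjective _ (periodHomPair_injective N)).trans
    (LinearEquiv.ofEq _ _ (range_periodHomPair N))

@[simp] theorem eichlerShimuraEquiv_coe (N : ℕ) [NeZero N]
    (x : CuspForm (Gamma0 N) 2 × CuspForm (Gamma0 N) 2) :
    ((eichlerShimuraEquiv N x : ModularCurve.Period.parabolicHoms ℂ (Gamma0 N) ℂ) :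
      Additive (Gamma0 N) →+ ℂ) = ModularCurve.periodHomPair N x := rfl

end Fermat.Agent.Periods
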